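/-
Existence of Frobenius elements in `Gal(ℚ̄/ℚ)`.

Main result: `Fermat.Agent.Lib.exists_isFrobeniusAt`:
for every prime `ℓ` there are a valuation subring `A` of `AlgebraicClosure ℚ` lying over `ℓ` and
`σ ∈ Gal(ℚ̄/ℚ)` which is a Frobenius element at `A`.
-/
import Mathlib
import Fermat.Prelude.Def_EllipticCurve_FrobeniusTrace

set_option autoImplicit false

open scoped Pointwise
open Polynomial

namespace Fermat.Agent.Lib.FrobeniusExists

/-- `ℚ̄` (with the `ℚ`-algebra structure found by instance search, as in the frozen statements). -/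
abbrev Qbar := AlgebraicClosure ℚ

/-- The absolute Galois group of `ℚ`. -/
abbrev GQ := Qbar ≃ₐ[ℚ] Qbar

/-- The ring of all algebraic integers. -/
noncomputable abbrev Zbar := integralClosure ℤ Qbar

theorem isAlgClosure_Qbar : IsAlgClosure ℚ Qbar := by
  have h : (DivisionRing.toRatAlgebra : Algebra ℚ Qbar) = AlgebraicClosure.instAlgebra ℚ :=
    Subsingleton.elim _ _
  rw [h]
  infer_instance

theorem isGalois_Qbar : IsGalois ℚ Qbar :=
  haveI := isAlgClosure_Qbar
  IsAlgClosure.isGalois ℚ Qbar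

theorem isIntegral_Qbar : Algebra.IsIntegral ℚ Qbar :=
  haveI := isAlgClosure_Qbar
  inferInstance

theorem isAlgebraic_int_Qbar (x : Qbar) : IsAlgebraic ℤ x := by
  have h : IsAlgebraic ℚ x := by
    haveI : Algebra.IsAlgebraic ℚ Qbar := by
      haveI := isAlgClosure_Qbar
      infer_instance
    exact Algebra.IsAlgebraic.isAlgebraic x
  exact (IsFractionRing.isAlgebraic_iff ℤ ℚ Qbar).mpr h

/-! ### Valuation subrings of `ℚ̄` and algebraic integers -/

/-- every algebraic integer lies in every valuation subring -/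
theorem mem_valuationSubring_of_isIntegral (V : ValuationSubring Qbar) {x : Qbar}
    (hx : IsIntegral ℤ x) : x ∈ V := by
  have h1 : IsIntegral V x := hx.tower_top
  obtain ⟨y, hy⟩ := IsIntegrallyClosed.isIntegral_iff.mp h1
  rw [← hy]
  exact y.2

theorem aeval_mem_valuationSubring (W : ValuationSubring Qbar) {x : Qbar} (hx : x ∈ W)
    (g : ℤ[X]) : aeval x g ∈ W := by
  induction g using Polynomial.induction_on with
  | C a =>
    rw [aeval_C, eq_intCast]
    exact intCast_mem W a
  | add p q hp hq =>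
    rw [map_add]
    exact add_mem hp hq
  | monomial n a h =>
    rw [pow_succ, ← mul_assoc, map_mul, aeval_X]
    exact mul_mem h hx

/-- Horner partial sums of an integer polynomial killing `x` lie in every valuation subring. -/
theorem horner_mem_valuationSubring (W : ValuationSubring Qbar) (x : Qbar) (f : ℤ[X])
    (hf : aeval x f = 0) (k : ℕ) : aeval x (divX^[k] f) ∈ W := by
  by_cases hx : x ∈ W
  · exact aeval_mem_valuationSubring W hx _
  · have hx0 : x ≠ 0 := by
      rintro rfl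
      exact hx W.zero_mem
    have hxinv : x⁻¹ ∈ W := (W.mem_or_inv_mem x).resolve_left hx
    induction k with
    | zero =>
      rw [Function.iterate_zero, id, hf]
      exact W.zero_mem
    | succ k ih =>
      rw [Function.iterate_succ_apply']
      set g := divX^[k] f with hg
      have h1 : aeval x g = aeval x (divX g) * x + (g.coeff 0 : Qbar) := by
        conv_lhs => rw [← divX_mul_X_add g]
        rw [map_add, map_mul, aeval_X, aeval_C, eq_intCast]
      have h2 : aeval x (divX g) = (aeval x g - (g.coeff 0 : Qbar)) * x⁻¹ := by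
        rw [h1, add_sub_cancel_right, mul_assoc, mul_inv_cancel₀ hx0, mul_one]
      rw [h2]
      exact mul_mem (sub_mem ih (intCast_mem W _)) hxinv

theorem isIntegral_of_forall_mem_valuationSubring {y : Qbar}
    (h : ∀ W : ValuationSubring Qbar, y ∈ W) : IsIntegral ℤ y := by
  by_contra hy
  have hy' : y ∉ Zbar.toSubring := hy
  have : IsIntegrallyClosedIn (↥Zbar.toSubring) Qbar :=
    inferInstanceAs (IsIntegrallyClosedIn (↥Zbar) Qbar)
  obtain ⟨V, -, hV⟩ := Subring.exists_le_valuationSubring_of_isIntegrallyClosedIn hy'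
  exact hV (h V)

theorem coeff_iterate_divX (f : ℤ[X]) (k n : ℕ) : (divX^[k] f).coeff n = f.coeff (n + k) := by
  induction k generalizing n with
  | zero => simp
  | succ k ih =>
    rw [Function.iterate_succ_apply', coeff_divX, ih]
    congr 1
    ring

theorem valuation_intCast_le_one (V : ValuationSubring Qbar) (n : ℤ) :
    V.valuation (n : Qbar) ≤ 1 :=
  (V.valuation_le_one_iff _).mpr (intCast_mem V n)

/-- Every element of a valuation subring `V` of `ℚ̄` over `ℓ` is a quotient `c / b` of algebraic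
integers with `b` a unit of `V`. -/
theorem exists_num_den (V : ValuationSubring Qbar) (ℓ : ℕ) (hℓ : ℓ.Prime)
    (hV : (ℓ : Qbar) ∈ V.nonunits) {x : Qbar} (hx : x ∈ V) :
    ∃ b c : Qbar, IsIntegral ℤ b ∧ IsIntegral ℤ c ∧ b ∉ V.nonunits ∧ x * b = c := by
  classical
  obtain ⟨p, hp0, hp⟩ := isAlgebraic_int_Qbar x
  set f := p.primPart with hf
  have hfx : aeval x f = 0 := (aeval_primPart_eq_zero hp0 hp)
  have hprim : f.IsPrimitive := isPrimitive_primPart p
  have hℓZ : Prime (ℓ : ℤ) := Nat.prime_iff_prime_int.mp hℓ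
  have hex : ∃ i, ¬ (ℓ : ℤ) ∣ f.coeff i := by
    by_contra hcon
    push Not at hcon
    have : C (ℓ : ℤ) ∣ f := (C_dvd_iff_dvd_coeff _ _).mpr hcon
    exact hℓZ.not_isUnit (hprim _ this)
  obtain ⟨i, hi⟩ := hex
  have hile : i ≤ f.natDegree := by
    by_contra hlt
    push Not at hlt
    exact hi (by rw [coeff_eq_zero_of_natDegree_lt hlt]; exact dvd_zero _)
  set j := Nat.findGreatest (fun i => ¬ (ℓ : ℤ) ∣ f.coeff i) f.natDegree with hj
  have hjspec : ¬ (ℓ : ℤ) ∣ f.coeff j :=
    Nat.findGreatest_spec (P := fun i => ¬ (ℓ : ℤ) ∣ f.coeff i) hile hi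
  have hjmax : ∀ k, j < k → (ℓ : ℤ) ∣ f.coeff k := by
    intro k hk
    by_cases hkn : k ≤ f.natDegree
    · have := Nat.findGreatest_is_greatest (P := fun i => ¬ (ℓ : ℤ) ∣ f.coeff i) hk hkn
      simpa using this
    · push Not at hkn
      rw [coeff_eq_zero_of_natDegree_lt hkn]; exact dvd_zero _
  -- the Horner sums
  have hint : ∀ k, IsIntegral ℤ (aeval x (divX^[k] f)) := fun k =>
    isIntegral_of_forall_mem_valuationSubring fun W => horner_mem_valuationSubring W x f hfx k
  have hrec : ∀ k, aeval x (divX^[k] f) = aeval x (divX^[k+1] f) * x + (f.coeff k : Qbar) := by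
    intro k
    rw [Function.iterate_succ_apply']
    conv_lhs => rw [← divX_mul_X_add (divX^[k] f)]
    rw [map_add, map_mul, aeval_X, aeval_C, eq_intCast, coeff_iterate_divX, zero_add]
  refine ⟨aeval x (divX^[j] f), x * aeval x (divX^[j] f), hint j, ?_, ?_, rfl⟩
  · -- integrality of x * b
    rcases Nat.eq_zero_or_pos j with hj0 | hjpos
    · rw [hj0, Function.iterate_zero, id, hfx, mul_zero]
      exact isIntegral_zero
    · obtain ⟨j', hj'⟩ := Nat.exists_eq_succ_of_ne_zero hjpos.ne'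
      have h1 := hrec j'
      have h2 : x * aeval x (divX^[j] f) = aeval x (divX^[j'] f) - (f.coeff j' : Qbar) := by
        rw [h1, hj']; ring
      rw [h2]
      exact (hint j').sub (isIntegral_intCast _)
  · -- b is a unit of V
    intro hb
    have hb' : V.valuation (aeval x (divX^[j] f)) < 1 := hb
    have hℓv : V.valuation (ℓ : Qbar) < 1 := hV
    have hxv : V.valuation x ≤ 1 := (V.valuation_le_one_iff _).mpr hx
    -- the tail is divisible by ℓ
    have hdiv : C (ℓ : ℤ) ∣ divX^[j+1] f := by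
      rw [C_dvd_iff_dvd_coeff]
      intro n
      rw [coeff_iterate_divX]
      exact hjmax _ (by omega)
    obtain ⟨g', hg'⟩ := hdiv
    have htail : V.valuation (aeval x (divX^[j+1] f) * x) < 1 := by
      have e1 : aeval x (divX^[j+1] f) = (ℓ : Qbar) * aeval x g' := by
        rw [hg', map_mul, aeval_C, eq_intCast, Int.cast_natCast]
      rw [e1, map_mul, map_mul]
      have hg'v : V.valuation (aeval x g') ≤ 1 :=
        (V.valuation_le_one_iff _).mpr (aeval_mem_valuationSubring V hx g')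
      calc V.valuation (ℓ : Qbar) * V.valuation (aeval x g') * V.valuation x
          ≤ V.valuation (ℓ : Qbar) * 1 * 1 := by gcongr
        _ < 1 := by simpa using hℓv
    have haj : V.valuation (f.coeff j : Qbar) < 1 := by
      have h1 := hrec j
      have h2 : (f.coeff j : Qbar) = aeval x (divX^[j] f) - aeval x (divX^[j+1] f) * x := by
        rw [h1]; ring
      rw [h2]
      exact lt_of_le_of_lt (Valuation.map_sub _ _ _) (max_lt hb' htail)
    -- but f.coeff j is prime to ℓ
    have hcop : IsCoprime (ℓ : ℤ) (f.coeff j) := (hℓZ.irreducible.coprime_iff_not_dvd).mpr hjspec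
    obtain ⟨u, w, huw⟩ := hcop
    have h1 : V.valuation ((u : Qbar) * (ℓ : Qbar) + (w : Qbar) * (f.coeff j : Qbar)) < 1 := by
      refine lt_of_le_of_lt (Valuation.map_add _ _ _) (max_lt ?_ ?_)
      · rw [map_mul]
        calc V.valuation (u : Qbar) * V.valuation (ℓ : Qbar) ≤ 1 * V.valuation (ℓ : Qbar) := by
              gcongr; exact valuation_intCast_le_one V u
          _ < 1 := by simpa using hℓv
      · rw [map_mul]
        calc V.valuation (w : Qbar) * V.valuation (f.coeff j : Qbar)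
            ≤ 1 * V.valuation (f.coeff j : Qbar) := by
              gcongr; exact valuation_intCast_le_one V w
          _ < 1 := by simpa using haj
    have h2 : (u : Qbar) * (ℓ : Qbar) + (w : Qbar) * (f.coeff j : Qbar) = 1 := by
      have := congrArg (Int.cast : ℤ → Qbar) huw
      push_cast at this
      exact this
    rw [h2, map_one] at h1
    exact lt_irrefl _ h1

/-- There is a valuation subring of `ℚ̄` over every prime. -/
theorem exists_valuationSubring_liesOverPrime (ℓ : ℕ) (hℓ : ℓ.Prime) :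
    ∃ V : ValuationSubring Qbar, V.LiesOverPrime ℓ := by
  let A : Subring Qbar := (Int.castRingHom Qbar).range
  let a : A := ⟨(ℓ : Qbar), ⟨(ℓ : ℤ), by simp⟩⟩
  have hI : Ideal.span {a} ≠ ⊤ := by
    intro htop
    rw [Ideal.span_singleton_eq_top] at htop
    obtain ⟨⟨c, n, hn⟩, hc⟩ := htop.exists_right_inv
    have h1 : (ℓ : Qbar) * c = 1 := congrArg Subtype.val hc
    rw [← hn] at h1
    have h2 : ((ℓ : ℤ) * n : ℤ) = 1 := by
      have : (((ℓ : ℤ) * n : ℤ) : Qbar) = ((1 : ℤ) : Qbar) := by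
        push_cast
        simpa using h1
      exact Int.cast_injective this
    have h3 : (ℓ : ℤ) ∣ 1 := ⟨n, h2.symm⟩
    exact (Nat.prime_iff_prime_int.mp hℓ).not_dvd_one h3
  obtain ⟨V, -, hV⟩ := Ideal.image_subset_nonunits_valuationSubring _ hI
  refine ⟨V, ?_⟩
  exact hV ⟨a, Ideal.subset_span rfl, rfl⟩

/-! ### The Frobenius automorphism of a residue field -/

theorem exists_frobenius_algEquiv {B : Type*} [CommRing B] [Algebra ℤ B] [Algebra.IsIntegral ℤ B]
    (ℓ : ℕ) (hℓ : ℓ.Prime) (Q : Ideal B) [Q.IsPrime] [Q.LiesOver (Ideal.span {(ℓ : ℤ)})] :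
    ∃ φ : (B ⧸ Q) ≃ₐ[ℤ ⧸ Ideal.span {(ℓ : ℤ)}] (B ⧸ Q), ∀ x, φ x = x ^ ℓ := by
  have : Fact ℓ.Prime := ⟨hℓ⟩
  have hPmax : (Ideal.span {(ℓ : ℤ)}).IsMaximal := Int.ideal_span_isMaximal_of_prime ℓ
  have hQmax : Q.IsMaximal := Ideal.IsMaximal.of_liesOver_isMaximal Q (Ideal.span {(ℓ : ℤ)})
  letI := Ideal.Quotient.field (Ideal.span {(ℓ : ℤ)})
  letI := Ideal.Quotient.field Q
  have hℓQ : ((ℓ : ℕ) : B ⧸ Q) = 0 := by
    have h1 : (algebraMap ℤ B (ℓ : ℤ)) ∈ Q := by
      have : (ℓ : ℤ) ∈ Q.under ℤ := by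
        rw [← Ideal.LiesOver.over (p := Ideal.span {(ℓ : ℤ)}) (P := Q)]
        exact Ideal.subset_span rfl
      exact this
    have h2 : Ideal.Quotient.mk Q (algebraMap ℤ B (ℓ : ℤ)) = 0 :=
      Ideal.Quotient.eq_zero_iff_mem.mpr h1
    rw [eq_intCast, map_intCast, Int.cast_natCast] at h2
    exact h2
  have : CharP (B ⧸ Q) ℓ := (CharP.charP_iff_prime_eq_zero hℓ).mpr hℓQ
  let F : (B ⧸ Q) →ₐ[ℤ ⧸ Ideal.span {(ℓ : ℤ)}] (B ⧸ Q) :=
    { frobenius (B ⧸ Q) ℓ with
      commutes' := by
        intro r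
        obtain ⟨n, rfl⟩ := Ideal.Quotient.mk_surjective r
        have : algebraMap (ℤ ⧸ Ideal.span {(ℓ : ℤ)}) (B ⧸ Q) (Ideal.Quotient.mk _ n)
            = (n : B ⧸ Q) := by
          rw [Ideal.Quotient.algebraMap_mk_of_liesOver, eq_intCast, map_intCast]
        simp only [RingHom.toMonoidHom_eq_coe, OneHom.toFun_eq_coe, MonoidHom.toOneHom_coe,
          MonoidHom.coe_coe]
        rw [this, map_intCast] }
  have hbij : Function.Bijective F := Algebra.IsAlgebraic.algHom_bijective F
  exact ⟨AlgEquiv.ofBijective F hbij, fun x => rfl⟩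

/-! ### The profinite group `Gal(ℚ̄/ℚ)` acting on algebraic integers -/

section Profinite

attribute [local instance] isGalois_Qbar isIntegral_Qbar

/-- discrete topology on `Zbar` -/
local instance instTopZbar : TopologicalSpace Zbar := ⊥

local instance : DiscreteTopology Zbar := ⟨rfl⟩

theorem continuousSMul_Zbar : ContinuousSMul GQ Zbar := by
  rw [continuousSMul_iff_stabilizer_isOpen]
  intro b
  have h := stabilizer_isOpen_of_isIntegral (K := ℚ) (L := Qbar) (b : Qbar)
  convert h using 2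
  ext g
  simp only [MulAction.mem_stabilizer_iff]
  constructor
  · intro hg
    have := congrArg Subtype.val hg
    simpa using this
  · intro hg
    apply Subtype.ext
    simpa using hg

theorem isInvariant_Zbar : Algebra.IsInvariant ℤ Zbar GQ := by
  constructor
  intro b hb
  have hfix : ∀ g : GQ, g (b : Qbar) = (b : Qbar) := by
    intro g
    have := congrArg Subtype.val (hb g)
    simpa using this
  have hbot : (b : Qbar) ∈ (⊥ : IntermediateField ℚ Qbar) :=
    (InfiniteGalois.mem_bot_iff_fixed (b : Qbar)).mpr hfix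
  obtain ⟨r, hr⟩ := IntermediateField.mem_bot.mp hbot
  have hint : IsIntegral ℤ r := by
    have hb' : IsIntegral ℤ (algebraMap ℚ Qbar r) := hr ▸ b.2
    exact (isIntegral_algebraMap_iff (algebraMap ℚ Qbar).injective).mp hb'
  obtain ⟨n, hn⟩ := IsIntegrallyClosed.isIntegral_iff.mp hint
  refine ⟨n, Subtype.ext ?_⟩
  rw [← hr, ← hn]
  simp

attribute [local instance] continuousSMul_Zbar isInvariant_Zbar

/-- **Existence of Frobenius elements.** -/
theorem exists_isFrobeniusAt (ℓ : ℕ) (hℓ : ℓ.Prime) :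
    ∃ (A : ValuationSubring (AlgebraicClosure ℚ))
      (σ : AlgebraicClosure ℚ ≃ₐ[ℚ] AlgebraicClosure ℚ),
      A.LiesOverPrime ℓ ∧ A.IsFrobeniusAt σ ℓ := by
  obtain ⟨V, hV⟩ := exists_valuationSubring_liesOverPrime ℓ hℓ
  have hZV : ∀ b : Zbar, (b : Qbar) ∈ V := fun b => mem_valuationSubring_of_isIntegral V b.2
  let ι : Zbar →+* V := (algebraMap Zbar Qbar).codRestrict V.toSubring hZV
  let Q : Ideal Zbar := Ideal.comap ι (IsLocalRing.maximalIdeal V)
  have hQmem : ∀ b : Zbar, b ∈ Q ↔ (b : Qbar) ∈ V.nonunits := by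
    intro b
    rw [Ideal.mem_comap, ← ValuationSubring.coe_mem_nonunits_iff]
    rfl
  haveI : Q.IsPrime := Ideal.comap_isPrime ι _
  have hPmax : (Ideal.span {(ℓ : ℤ)}).IsMaximal := by
    haveI : Fact ℓ.Prime := ⟨hℓ⟩
    exact Int.ideal_span_isMaximal_of_prime ℓ
  haveI hlo : Q.LiesOver (Ideal.span {(ℓ : ℤ)}) := by
    rw [Ideal.liesOver_iff]
    refine hPmax.eq_of_le (Ideal.IsPrime.under ℤ Q).ne_top ?_
    rw [Ideal.span_le]
    intro z hz
    rw [Set.mem_singleton_iff] at hz
    subst hz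
    change algebraMap ℤ Zbar (ℓ : ℤ) ∈ Q
    rw [hQmem]
    have hV' : (ℓ : Qbar) ∈ V.nonunits := hV
    simpa using hV'
  obtain ⟨φ, hφ⟩ := exists_frobenius_algEquiv ℓ hℓ Q
  obtain ⟨σ, hσ⟩ := Ideal.Quotient.stabilizerHom_surjective_of_profinite (G := GQ)
    (Ideal.span {(ℓ : ℤ)}) Q φ
  have hfrob : ∀ b : Zbar, σ.1 • b - b ^ ℓ ∈ Q := by
    intro b
    have h1 := DFunLike.congr_fun hσ (Ideal.Quotient.mk Q b)
    rw [Ideal.Quotient.stabilizerHom_apply, hφ, ← map_pow] at h1
    exact Ideal.Quotient.eq.mp h1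
  have hstab : ∀ τ : GQ, τ • Q = Q → ∀ x : Qbar, x ∈ V → τ x ∈ V := by
    intro τ hτ x hx
    obtain ⟨b, c, hb, hc, hbV, hxb⟩ := exists_num_den V ℓ hℓ hV hx
    let b' : Zbar := ⟨b, hb⟩
    let c' : Zbar := ⟨c, hc⟩
    have hb'Q : b' ∉ Q := fun h => hbV ((hQmem b').mp h)
    have hτb : τ • b' ∉ Q := by
      intro h
      apply hb'Q
      rw [← hτ] at h
      exact Ideal.smul_mem_pointwise_smul_iff.mp h
    have hτbV : τ b ∉ V.nonunits := fun h => hτb ((hQmem (τ • b')).mpr h)
    have hτb_mem : τ b ∈ V := hZV (τ • b')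
    have hτc_mem : τ c ∈ V := hZV (τ • c')
    have hv1 : V.valuation (τ b) = 1 :=
      le_antisymm ((V.valuation_le_one_iff _).mpr hτb_mem) (not_lt.mp hτbV)
    have hτb0 : τ b ≠ 0 := by
      intro h0
      rw [h0, map_zero] at hv1
      exact zero_ne_one hv1
    have hinv : (τ b)⁻¹ ∈ V := by
      rw [← V.valuation_le_one_iff, map_inv₀, hv1, inv_one]
    have hx' : τ x = τ c * (τ b)⁻¹ := by
      rw [← hxb, map_mul]
      field_simp
    rw [hx']
    exact mul_mem hτc_mem hinv
  have hdec : σ.1 ∈ V.decompositionSubgroup ℚ := by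
    rw [MulAction.mem_stabilizer_iff]
    apply SetLike.ext
    intro x
    rw [ValuationSubring.mem_pointwise_smul_iff_inv_smul_mem]
    constructor
    · intro h
      have := hstab σ.1 σ.2 _ h
      simpa using this
    · intro h
      exact hstab σ.1⁻¹ ((MulAction.stabilizer GQ Q).inv_mem σ.2) x h
  refine ⟨V, σ.1, hV, hdec, ?_⟩
  intro xbar
  obtain ⟨x, rfl⟩ := IsLocalRing.residue_surjective xbar
  rw [← IsLocalRing.ResidueField.residue_smul, ← map_pow]
  obtain ⟨b, c, hb, hc, hbV, hxb⟩ := exists_num_den V ℓ hℓ hV x.2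
  set g : V.decompositionSubgroup ℚ := ⟨σ.1, hdec⟩ with hg
  let bV : V := ⟨b, hZV ⟨b, hb⟩⟩
  let cV : V := ⟨c, hZV ⟨c, hc⟩⟩
  have hxbV : x * bV = cV := Subtype.ext hxb
  -- Frobenius congruence for elements of `V` coming from algebraic integers
  have hres : ∀ (y : Qbar) (hy : IsIntegral ℤ y),
      IsLocalRing.residue V (g • (⟨y, hZV ⟨y, hy⟩⟩ : V)) =
        IsLocalRing.residue V ((⟨y, hZV ⟨y, hy⟩⟩ : V) ^ ℓ) := by
    intro y hy
    rw [← sub_eq_zero, ← map_sub, IsLocalRing.residue_eq_zero_iff,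
      ← ValuationSubring.coe_mem_nonunits_iff]
    have := (hQmem _).mp (hfrob ⟨y, hy⟩)
    exact this
  have hbne : IsLocalRing.residue V bV ≠ 0 := by
    rw [Ne, IsLocalRing.residue_eq_zero_iff, ← ValuationSubring.coe_mem_nonunits_iff]
    exact hbV
  have h1 : IsLocalRing.residue V (g • x) * IsLocalRing.residue V (bV ^ ℓ) =
      IsLocalRing.residue V (x ^ ℓ) * IsLocalRing.residue V (bV ^ ℓ) := by
    calc IsLocalRing.residue V (g • x) * IsLocalRing.residue V (bV ^ ℓ)
        = IsLocalRing.residue V (g • x) * IsLocalRing.residue V (g • bV) := by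
          rw [hres b hb]
      _ = IsLocalRing.residue V (g • cV) := by
          rw [← map_mul, ← smul_mul', hxbV]
      _ = IsLocalRing.residue V (cV ^ ℓ) := hres c hc
      _ = IsLocalRing.residue V (x ^ ℓ) * IsLocalRing.residue V (bV ^ ℓ) := by
          rw [← map_mul, ← mul_pow, hxbV]
  have hbne' : IsLocalRing.residue V (bV ^ ℓ) ≠ 0 := by
    rw [map_pow]
    exact pow_ne_zero _ hbne
  exact mul_right_cancel₀ hbne' h1

end Profinite

end Fermat.Agent.Lib.FrobeniusExists

namespace Fermat.Agent.Lib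

/-- **Existence of Frobenius elements**: for every prime `ℓ` there are a valuation subring `A` of
`ℚ̄` lying over `ℓ` and a Frobenius element `σ ∈ Gal(ℚ̄/ℚ)` at `A`. -/
theorem exists_isFrobeniusAt (ℓ : ℕ) (hℓ : ℓ.Prime) :
    ∃ (A : ValuationSubring (AlgebraicClosure ℚ))
      (σ : AlgebraicClosure ℚ ≃ₐ[ℚ] AlgebraicClosure ℚ),
      A.LiesOverPrime ℓ ∧ A.IsFrobeniusAt σ ℓ :=
  FrobeniusExists.exists_isFrobeniusAt ℓ hℓ

end Fermat.Agent.Lib
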